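import Fermat.Agent.S26.Model.Div

/-! # S26 / M7 : auxiliary lemmas for the theorem of the square (generalities). -/

set_option autoImplicit false

universe u

namespace Fermat.Agent.S26

open AlgebraicCurve IsLocalRing

namespace Sq

/-! ### finite extensions of function fields -/

theorem ff1_of_finite (Ω : Type*) (𝕃 L : Type u) [Field Ω] [Field 𝕃] [Field L] [Algebra Ω 𝕃]
    [Algebra 𝕃 L] [Algebra Ω L] [IsScalarTower Ω 𝕃 L] [FF1 Ω 𝕃] [Module.Finite 𝕃 L] : FF1 Ω L where
  essFiniteType := by
    have h1 : Algebra.EssFiniteType Ω 𝕃 := FF1.essFiniteType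
    have h2 : Algebra.EssFiniteType 𝕃 L := inferInstance
    exact Algebra.EssFiniteType.comp Ω 𝕃 L
  trdeg_eq_one := by
    have h1 := FF1.trdeg_eq_one (Ω := Ω) (𝕃 := 𝕃)
    have h2 := trdeg_add_eq Ω 𝕃 (A := L)
    have h3 : Algebra.trdeg 𝕃 L = 0 := trdeg_eq_zero
    rw [h1, h3, add_zero] at h2
    exact h2.symm

/-! ### `restrictConst` -/

section restrict

variable {K Ψ Φ : Type*} [Field K] [Field Ψ] [Field Φ] [Algebra K Ψ] [Algebra Ψ Φ] [Algebra K Φ]
  [IsScalarTower K Ψ Φ]

theorem ord_restrictConst (y : Place Ψ Φ) (f : Φ) : (y.restrictConst K).ord f = y.ord f := rfl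

theorem toValuationSubring_restrictConst (y : Place Ψ Φ) :
    (y.restrictConst K).toValuationSubring = y.toValuationSubring := rfl

end restrict

/-! ### residue field maps -/

section resMap

variable {K : Type*} [Field K] {R S : Type*} [CommRing R] [IsLocalRing R] [CommRing S] [IsLocalRing S]
  [Algebra K R] [Algebra K S]

/-- the map of residue fields induced by a local `K`-algebra homomorphism -/
noncomputable def resMap (j : R →ₐ[K] S) (hj : IsLocalHom j.toRingHom) :
    ResidueField R →ₐ[K] ResidueField S :=
  { ResidueField.map j.toRingHom with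
    commutes' := fun a => by
      have h1 : algebraMap K (ResidueField R) a = residue R (algebraMap K R a) := rfl
      have h2 : algebraMap K (ResidueField S) a = residue S (algebraMap K S a) := rfl
      simp only [RingHom.toMonoidHom_eq_coe, OneHom.toFun_eq_coe, MonoidHom.toOneHom_coe,
        MonoidHom.coe_coe]
      rw [h1, h2, ResidueField.map_residue]
      simp }

theorem resMap_comp (j : R →ₐ[K] S) (hj : IsLocalHom j.toRingHom) :
    (resMap j hj).comp (IsScalarTower.toAlgHom K R (ResidueField R)) =
      (IsScalarTower.toAlgHom K S (ResidueField S)).comp j := by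
  ext r
  exact ResidueField.map_residue j.toRingHom r

end resMap

end Sq

namespace AVModel

variable {K : Type u} [Field K] {F : Type u} [Field F] [Algebra K F] (M : AVModel K F)

section red

variable {Φ : Type u} [Field Φ] [Algebra K Φ] (v : Place K Φ)

/-- reduction of a point which extends to a model `B → O_v`. -/
theorem red_map_comp {B : Type u} [CommRing B] [Algebra K B] (j : B →ₐ[K] v.toValuationSubring)
    (z : M.Pt B) :
    M.red v (M.map ((IsScalarTower.toAlgHom K v.toValuationSubring Φ).comp j) z) =
      M.map ((IsScalarTower.toAlgHom K v.toValuationSubring v.ResidueField).comp j) z := by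
  rw [red, M.lift_eq_map v j z _ rfl, bc, ← M.map_comp]

/-- If `x` reduces to `0` at `c` and `v` dominates `c` along `ι`, then `ι x` reduces to `0` at `v`. -/
theorem red_map_eq_zero {F₁ : Type u} [Field F₁] [Algebra K F₁] (c : Place K F₁) (x : M.Pt F₁)
    (hx : M.red c x = 0) (ι : F₁ →ₐ[K] Φ)
    (h1 : ∀ a : F₁, a ∈ c.toValuationSubring → ι a ∈ v.toValuationSubring)
    (h2 : ∀ a : F₁, 0 < c.ord a → 0 < v.ord (ι a)) :
    M.red v (M.map ι x) = 0 := by
  let j : c.toValuationSubring →ₐ[K] v.toValuationSubring :=
    { toFun := fun a => ⟨ι a, h1 a a.2⟩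
      map_one' := Subtype.ext (map_one ι)
      map_mul' := fun a b => Subtype.ext (map_mul ι _ _)
      map_zero' := Subtype.ext (_root_.map_zero ι)
      map_add' := fun a b => Subtype.ext (_root_.map_add ι _ _)
      commutes' := fun k => Subtype.ext (ι.commutes k) }
  have hj : IsLocalHom j.toRingHom := by
    constructor
    intro a ha
    obtain ⟨u, hu⟩ := ha
    have h3 : v.ord (ι a) = 0 := by
      have := v.ord_coe_unit u
      rw [hu] at this
      exact this
    have ha0 : (a : F₁) ≠ 0 := by
      intro h0
      have : (u : v.toValuationSubring) = 0 := by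
        rw [hu]
        exact Subtype.ext (by show ι a = 0; rw [h0, _root_.map_zero])
      exact u.ne_zero this
    have h4 : 0 ≤ c.ord (a : F₁) := Fermat.Agent.S24.FF.ord_nonneg_of_mem c a.2
    have h5 : c.ord (a : F₁) = 0 := by
      rcases h4.lt_or_eq with h | h
      · have := h2 a h
        omega
      · exact h.symm
    have h6 : (a : F₁)⁻¹ ∈ c.toValuationSubring := by
      apply Fermat.Agent.S24.FF.mem_of_ord_nonneg
      rw [c.ord_inv, h5]; simp
    exact isUnit_iff_exists_inv.mpr ⟨⟨_, h6⟩, Subtype.ext (mul_inv_cancel₀ ha0)⟩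
  have e1 : M.map ι x =
      M.map ((IsScalarTower.toAlgHom K v.toValuationSubring Φ).comp j) (M.lift c x) := by
    have : (IsScalarTower.toAlgHom K v.toValuationSubring Φ).comp j =
        ι.comp (IsScalarTower.toAlgHom K c.toValuationSubring F₁) := by
      ext a; rfl
    rw [this, M.map_comp, M.map_lift]
  rw [e1, M.red_map_comp, ← Sq.resMap_comp j hj, M.map_comp]
  have : M.map (IsScalarTower.toAlgHom K c.toValuationSubring (ResidueField c.toValuationSubring))
      (M.lift c x) = M.red c x := rfl
  rw [this, hx, M.map_zero]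

end red

end AVModel

end Fermat.Agent.S26
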