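import Fermat.Agent.S26.Sq.SP

/-! # S26 / M8-b : the `λ`-argument. -/

set_option autoImplicit false
set_option linter.unusedSectionVars false

universe u

namespace Fermat.Agent.S26

open AlgebraicCurve IsLocalRing

namespace AVModel

variable {K : Type u} [Field K] [IsAlgClosed K] {F : Type u} [Field F] [Algebra K F] (M : AVModel K F)

section

variable (ζ : M.X) {FC κ : Type u} [Field FC] [Algebra K FC] [FF1 K FC] [Field κ] [Algebra K κ]
  (α : M.Pt FC) {J : Type} [Fintype J] (n : J → ℤ) (x : J → M.Pt κ) (f : CF K κ FC)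

theorem LA.ord_place_eq_zero (p : CPt K FC κ) (hgen : ∀ j, M.IsGeneric (x j - M.evalC α p))
    (hdiv : ∀ Q : Place κ (CF K κ FC),
      Q.ord f = ∑ j, n j * M.Dv ζ (M.zOf (x j) α) (Q.restrictConst K)) :
    p.place.ord f = 0 := by
  rw [hdiv]
  exact Finset.sum_eq_zero fun j _ => by rw [M.Dv_place_eq_zero ζ (x j) α p (hgen j), mul_zero]

theorem LA.ord_eval (hf : f ≠ 0) (p : CPt K FC κ) (hgen : ∀ j, M.IsGeneric (x j - M.evalC α p))
    (hdiv : ∀ Q : Place κ (CF K κ FC),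
      Q.ord f = ∑ j, n j * M.Dv ζ (M.zOf (x j) α) (Q.restrictConst K))
    (hmem : f ∈ p.place.toValuationSubring) (v : Place K κ) :
    v.ord (p.eval ⟨f, hmem⟩) = (gauss v FC).ord f +
      ∑ j, n j * (M.Dv ζ (x j - M.evalC α p) v - M.Dv ζ (M.zOf (x j) α) (gauss v FC)) := by
  rw [ord_eval_eq v p ⟨f, hmem⟩ (LA.ord_place_eq_zero M ζ α n x f p hgen hdiv)
    (fun h => hf (congrArg Subtype.val h))]
  congr 1
  have : ∀ Q : Place κ (CF K κ FC), Q.ord f * jmult v p Q =
      ∑ j, n j * (M.Dv ζ (M.zOf (x j) α) (Q.restrictConst K) * jmult v p Q) := by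
    intro Q
    rw [hdiv, Finset.sum_mul]
    exact Finset.sum_congr rfl fun j _ => by ring
  simp only [this]
  rw [finsum_sum_comm]
  · refine Finset.sum_congr rfl fun j _ => ?_
    rw [← mul_finsum, M.Dv_section ζ v (x j) α p (hgen j)]
    ring
  · intro j _
    exact (M.hasFiniteSupport_Dv_mul ζ (M.zOf (x j) α) (jmult v p)).subset
      fun Q hQ => right_ne_zero_of_mul hQ

end

/-- (M8b) the `λ`-argument (statement of `lambda_argument` with `degDv` unfolded). -/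
theorem LA.main (ζ : M.X) {FC κ : Type u} [Field FC] [Algebra K FC] [FF1 K FC]
    [Field κ] [Algebra K κ] [Algebra F κ] [IsScalarTower K F κ] [FF1 F κ] (ι : FC →ₐ[K] κ)
    (c₀ : Place K FC) (α : M.Pt FC) (hα : M.red c₀ α = 0)
    {J : Type} [Fintype J] (n : J → ℤ) (ε : J → M.Pt FC)
    (hg1 : ∀ j, M.IsGeneric (M.bc F κ M.eta + M.map ι (ε j) - M.map ι α))
    (hg2 : ∀ j, M.IsGeneric (M.bc F κ M.eta + M.map ι (ε j)))
    (f : CF K κ FC) (hf : f ≠ 0)
    (hdiv : ∀ Q : Place κ (CF K κ FC),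
      Q.ord f = ∑ j, n j * M.Dv ζ (M.zOf (M.bc F κ M.eta + M.map ι (ε j)) α) (Q.restrictConst K)) :
    ∑ j, n j * (Divisor.degree (M.divOf (Ω := F) ζ (M.bc F κ M.eta + M.map ι (ε j) - M.map ι α))
      - Divisor.degree (M.divOf (Ω := F) ζ (M.bc F κ M.eta + M.map ι (ε j)))) = 0 := by
  set x : J → M.Pt κ := fun j => M.bc F κ M.eta + M.map ι (ε j) with hx
  set p₁ : CPt K FC κ := CPt.gen ι with hp₁
  set p₂ : CPt K FC κ := CPt.const c₀ with hp₂
  have e1 : M.evalC α p₁ = M.map ι α := rfl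
  have e2 : M.evalC α p₂ = 0 := by
    show M.map (Algebra.ofId K κ) (M.map (resEquiv c₀).toAlgHom (M.red c₀ α)) = 0
    rw [hα, M.map_zero, M.map_zero]
  have hgen1 : ∀ j, M.IsGeneric (x j - M.evalC α p₁) := hg1
  have hgen2 : ∀ j, M.IsGeneric (x j - M.evalC α p₂) := by
    intro j; rw [e2, sub_zero]; exact hg2 j
  have hm1 : f ∈ p₁.place.toValuationSubring :=
    Fermat.Agent.S24.FF.mem_of_ord_nonneg _ (LA.ord_place_eq_zero M ζ α n x f p₁ hgen1 hdiv).ge
  have hm2 : f ∈ p₂.place.toValuationSubring :=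
    Fermat.Agent.S24.FF.mem_of_ord_nonneg _ (LA.ord_place_eq_zero M ζ α n x f p₂ hgen2 hdiv).ge
  have hD : divisorOf (Ω := F) (p₁.eval ⟨f, hm1⟩) - divisorOf (Ω := F) (p₂.eval ⟨f, hm2⟩) =
      ∑ j, n j • (M.divOf (Ω := F) ζ (x j - M.map ι α) - M.divOf (Ω := F) ζ (x j)) := by
    ext w
    rw [Finsupp.sub_apply, divisorOf_apply, divisorOf_apply, Finsupp.finsetSum_apply]
    simp only [Finsupp.smul_apply, Finsupp.sub_apply, divOf_apply, smul_eq_mul]
    have h1 := LA.ord_eval M ζ α n x f hf p₁ hgen1 hdiv hm1 (w.restrictConst K)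
    have h2 := LA.ord_eval M ζ α n x f hf p₂ hgen2 hdiv hm2 (w.restrictConst K)
    rw [Sq.ord_restrictConst] at h1 h2
    rw [h1, h2, e1, e2]
    simp only [sub_zero, mul_sub, Finset.sum_sub_distrib]
    ring
  have hdeg := congrArg Divisor.degree hD
  rw [_root_.map_sub, degree_divisorOf, degree_divisorOf, sub_zero, _root_.map_sum] at hdeg
  rw [hdeg]
  refine Finset.sum_congr rfl fun j _ => ?_
  rw [_root_.map_zsmul, _root_.map_sub, smul_eq_mul]

end AVModel

end Fermat.Agent.S26
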