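import Fermat.Agent.S26.Sq.Rigid
import Fermat.Agent.S26.Curve.Nonspecial

/-! # S26 / M7 : the theorem of the square for an abstract tower `Φ₀ ⊆ Ψ ⊆ Φ` (Step 0 + rigidity). -/

set_option autoImplicit false
set_option linter.unusedSectionVars false

universe u

namespace Fermat.Agent.S26

open AlgebraicCurve IsLocalRing

namespace AVModel

variable {K : Type u} [Field K] [IsAlgClosed K] {F : Type u} [Field F] [Algebra K F] (M : AVModel K F)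
variable {FC : Type u} [Field FC] [Algebra K FC] [FF1 K FC]
variable (ζ : M.X) (α : M.Pt FC)
variable {Φ₀ Ψ Φ : Type u} [Field Φ₀] [Field Ψ] [Field Φ] [Algebra K Φ₀] [Algebra K Ψ] [Algebra K Φ]
  [Algebra Φ₀ Ψ] [Algebra Ψ Φ] [IsScalarTower K Φ₀ Ψ] [IsScalarTower K Ψ Φ] [FF1 Φ₀ Ψ] [FF1 Ψ Φ]

theorem square_abstract (v₁ : Place Ψ Φ) (w₁ : Place Φ₀ Ψ) (X₀ B : M.Pt Φ) (Γ : M.Pt Ψ)
    (hB : M.red (v₁.restrictConst K) B = 0) (hΓ : M.red (w₁.restrictConst K) Γ = 0) :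
    ∃ f : CF K Φ FC, f ≠ 0 ∧ ∀ Q : Place Φ (CF K Φ FC),
      Q.ord f = M.Dv ζ (M.zOf (X₀ + B + M.bc Ψ Φ Γ) α) (Q.restrictConst K)
        - M.Dv ζ (M.zOf (X₀ + B) α) (Q.restrictConst K)
        - M.Dv ζ (M.zOf (X₀ + M.bc Ψ Φ Γ) α) (Q.restrictConst K)
        + M.Dv ζ (M.zOf X₀ α) (Q.restrictConst K) := by
  classical
  set x : Fin 4 → M.Pt Φ := ![X₀ + B + M.bc Ψ Φ Γ, X₀ + B, X₀ + M.bc Ψ Φ Γ, X₀] with hx
  have x0 : x 0 = X₀ + B + M.bc Ψ Φ Γ := rfl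
  have x1 : x 1 = X₀ + B := rfl
  have x2 : x 2 = X₀ + M.bc Ψ Φ Γ := rfl
  have x3 : x 3 = X₀ := rfl
  obtain ⟨t, ht⟩ := exists_transcendental (Ω := K) (𝕃 := FC)
  have ht0 : t ≠ 0 := fun h => ht (h ▸ isAlgebraic_zero)
  obtain ⟨E, -, hES, hEΩ⟩ := exists_nonspecial (finite_ord_ne_zero (Ω := K) ht0).toFinset
  have hEt : ∀ c : Place K FC, c.ord t < 0 → E c = 0 := by
    intro c hc
    apply hES
    rw [Set.Finite.mem_toFinset]
    exact hc.ne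
  set M₀ : Divisor Φ (CF K Φ FC) := M.divOf ζ (M.zOf (x 0) α) - M.divOf ζ (M.zOf (x 1) α)
    - M.divOf ζ (M.zOf (x 2) α) + M.divOf ζ (M.zOf (x 3) α) with hM₀
  obtain ⟨ε, hε, hdeg⟩ : ∃ ε : ℤ, ε * ε = 1 ∧ 0 ≤ Divisor.degree (ε • M₀) := by
    by_cases h : 0 ≤ Divisor.degree M₀
    · exact ⟨1, by norm_num, by simpa using h⟩
    · refine ⟨-1, by norm_num, ?_⟩
      push Not at h
      rw [_root_.map_zsmul]
      simp only [smul_eq_mul]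
      omega
  obtain ⟨f, hfmem, hf0⟩ := Submodule.exists_mem_ne_zero_of_ne_bot ((hEΩ Φ).2 (ε • M₀) hdeg)
  have hXX : ∀ Q : Place Φ (CF K Φ FC), M.XX ζ α E (Sq.sgn ε) x f Q =
      Q.ord f + (ε • M₀ + constDiv Φ E) Q := by
    intro Q
    rw [XX, comb_sgn, Finsupp.add_apply, Finsupp.smul_apply, hM₀]
    simp only [Finsupp.add_apply, Finsupp.sub_apply, divOf_apply, smul_eq_mul]
    ring
  have hX : ∀ Q, 0 ≤ M.XX ζ α E (Sq.sgn ε) x f Q := by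
    intro Q
    rw [hXX]
    exact (mem_LSpace.mp hfmem).resolve_left hf0 Q
  have hrig := M.rigid ζ α v₁ w₁ B Γ hB hΓ x (by rw [x0, x1]; abel) (by rw [x2, x3]; abel)
    (by rw [x0, x2]; abel) (by rw [x1, x3]; abel) t ht E hEt (fun Ω _ _ => (hEΩ Ω).1) ε f hf0 hX
  refine ⟨f ^ (-ε), zpow_ne_zero _ hf0, fun Q => ?_⟩
  have h1 := hrig Q
  rw [XX, comb_sgn, x0, x1, x2, x3] at h1
  rw [Q.ord_zpow]
  set d := M.Dv ζ (M.zOf (X₀ + B + M.bc Ψ Φ Γ) α) (Q.restrictConst K)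
        - M.Dv ζ (M.zOf (X₀ + B) α) (Q.restrictConst K)
        - M.Dv ζ (M.zOf (X₀ + M.bc Ψ Φ Γ) α) (Q.restrictConst K)
        + M.Dv ζ (M.zOf X₀ α) (Q.restrictConst K) with hd
  have h2 : Q.ord f = -(ε * d) := by linarith
  rw [h2]
  linear_combination d * hε

end AVModel

end Fermat.Agent.S26
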