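import Fermat.Agent.S26.Sq.SP

/-! # S26 / M7 : rigidity (Steps 1-3 of the theorem of the square). -/

set_option autoImplicit false
set_option linter.unusedSectionVars false
set_option linter.style.haveILetI false

universe u

namespace Fermat.Agent.S26

open AlgebraicCurve IsLocalRing

namespace Sq

/-- the signs `(ε, -ε, -ε, ε)` -/
def sgn (ε : ℤ) : Fin 4 → ℤ := ![ε, -ε, -ε, ε]

/-- Chevalley: a place of a finite extension `κ'` of `Ψ` dominating a given place of `Ψ`. -/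
theorem exists_place_dominating {Φ₀ : Type*} {Ψ κ' : Type u} [Field Φ₀] [Field Ψ] [Field κ']
    [Algebra Φ₀ Ψ] [Algebra Ψ κ'] [Algebra Φ₀ κ'] [IsScalarTower Φ₀ Ψ κ'] [FF1 Φ₀ κ']
    (w₁ : Place Φ₀ Ψ) :
    ∃ w' : Place Φ₀ κ', (∀ a : Ψ, a ∈ w₁.toValuationSubring → algebraMap Ψ κ' a ∈ w'.toValuationSubring) ∧
      (∀ a : Ψ, 0 < w₁.ord a → 0 < w'.ord (algebraMap Ψ κ' a)) := by
  let O₁ : Subalgebra Φ₀ Ψ :=
    { w₁.toValuationSubring.toSubring with algebraMap_mem' := w₁.algebraMap_mem' }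
  let R : Subalgebra Φ₀ κ' := O₁.map (IsScalarTower.toAlgHom Φ₀ Ψ κ')
  obtain ⟨ϖ, hϖ⟩ := Fermat.Agent.S24.FF.exists_ord_eq_one w₁
  have hϖ0 : ϖ ≠ 0 := Fermat.Agent.S24.FF.ne_zero_of_ord_ne_zero w₁ (by omega)
  have hϖmem : ϖ ∈ w₁.toValuationSubring := Fermat.Agent.S24.FF.mem_of_ord_nonneg w₁ (by omega)
  have hmemR : ∀ a : Ψ, a ∈ w₁.toValuationSubring → algebraMap Ψ κ' a ∈ R := fun a ha => ⟨a, ha, rfl⟩
  let xR : R := ⟨algebraMap Ψ κ' ϖ, hmemR ϖ hϖmem⟩
  have hxR0 : xR ≠ 0 := by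
    intro h
    have : algebraMap Ψ κ' ϖ = 0 := congrArg Subtype.val h
    exact hϖ0 (by simpa using this)
  have hxRu : ¬ IsUnit xR := by
    intro hu
    obtain ⟨r, hr⟩ := isUnit_iff_exists_inv.mp hu
    obtain ⟨r₀, hr₀, hr₀'⟩ := r.2
    have h1 : algebraMap Ψ κ' ϖ * (r : κ') = 1 := congrArg Subtype.val hr
    have hr₀'' : algebraMap Ψ κ' r₀ = (r : κ') := hr₀'
    rw [← hr₀'', ← map_mul] at h1
    have h2 : ϖ * r₀ = 1 := (algebraMap Ψ κ').injective (by rw [h1, map_one])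
    have hr₀0 : r₀ ≠ 0 := right_ne_zero_of_mul_eq_one h2
    have h3 := w₁.ord_mul hϖ0 hr₀0
    rw [h2, w₁.ord_one, hϖ] at h3
    have h4 : 0 ≤ w₁.ord r₀ := Fermat.Agent.S24.FF.ord_nonneg_of_mem w₁ hr₀
    omega
  obtain ⟨w', hw'R, hw'ϖ⟩ := exists_place_of_subalgebra R xR hxRu hxR0
  refine ⟨w', fun a ha => hw'R ⟨_, hmemR a ha⟩, ?_⟩
  intro a ha
  have ha0 : a ≠ 0 := Fermat.Agent.S24.FF.ne_zero_of_ord_ne_zero w₁ ha.ne'
  have hq0 : a / ϖ ≠ 0 := div_ne_zero ha0 hϖ0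
  have hq : a / ϖ ∈ w₁.toValuationSubring := by
    apply Fermat.Agent.S24.FF.mem_of_ord_nonneg
    rw [Fermat.Agent.S24.FF.ord_div w₁ ha0 hϖ0]
    omega
  have h1 : 0 ≤ w'.ord (algebraMap Ψ κ' (a / ϖ)) :=
    Fermat.Agent.S24.FF.ord_nonneg_of_mem w' (hw'R ⟨_, hmemR _ hq⟩)
  have h2 : a = ϖ * (a / ϖ) := by field_simp
  have h3 : w'.ord (algebraMap Ψ κ' a) =
      w'.ord (algebraMap Ψ κ' ϖ) + w'.ord (algebraMap Ψ κ' (a / ϖ)) := by
    conv_lhs => rw [h2, map_mul]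
    exact w'.ord_mul (by simpa using hϖ0) (by simpa using hq0)
  have h4 : 0 < w'.ord (algebraMap Ψ κ' ϖ) := hw'ϖ
  omega

end Sq

namespace AVModel

variable {K : Type u} [Field K] [IsAlgClosed K] {F : Type u} [Field F] [Algebra K F] (M : AVModel K F)
variable {FC : Type u} [Field FC] [Algebra K FC] [FF1 K FC]
variable (ζ : M.X) (α : M.Pt FC)

section comb

variable {Φ : Type u} [Field Φ] [Algebra K Φ]

theorem comb_sgn (ε : ℤ) (y : Fin 4 → M.Pt Φ) (Q : Place Φ (CF K Φ FC)) :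
    M.comb ζ α (Sq.sgn ε) y Q =
      ε * (M.Dv ζ (M.zOf (y 0) α) (Q.restrictConst K) - M.Dv ζ (M.zOf (y 1) α) (Q.restrictConst K)
        - M.Dv ζ (M.zOf (y 2) α) (Q.restrictConst K) + M.Dv ζ (M.zOf (y 3) α) (Q.restrictConst K)) := by
  simp only [comb, Sq.sgn, Fin.sum_univ_four, Matrix.cons_val_zero, Matrix.cons_val_one,
    Matrix.cons_val]
  ring

theorem comb_sgn_eq_zero_of_01 (ε : ℤ) (y : Fin 4 → M.Pt Φ) (h01 : y 0 = y 1) (h23 : y 2 = y 3)
    (Q : Place Φ (CF K Φ FC)) : M.comb ζ α (Sq.sgn ε) y Q = 0 := by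
  rw [comb_sgn, h01, h23]; ring

theorem comb_sgn_eq_zero_of_02 (ε : ℤ) (y : Fin 4 → M.Pt Φ) (h02 : y 0 = y 2) (h13 : y 1 = y 3)
    (Q : Place Φ (CF K Φ FC)) : M.comb ζ α (Sq.sgn ε) y Q = 0 := by
  rw [comb_sgn, h02, h13]; ring

end comb

/-- second stage of Step 2: over a finite extension `κ'` of `Ψ = Φ₀(W)`, specialise `w → w₀`. -/
theorem stage2 {Φ₀ Ψ κ' : Type u} [Field Φ₀] [Field Ψ] [Field κ'] [Algebra K Φ₀] [Algebra K Ψ]
    [Algebra K κ'] [Algebra Φ₀ Ψ] [Algebra Ψ κ'] [IsScalarTower K Φ₀ Ψ] [IsScalarTower K Ψ κ']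
    [FF1 Φ₀ Ψ] [Module.Finite Ψ κ']
    (w₁ : Place Φ₀ Ψ) (Γ : M.Pt Ψ) (hΓ : M.red (w₁.restrictConst K) Γ = 0)
    (E : Divisor K FC)
    (hEL : ∀ (Ω : Type u) [Field Ω] [Algebra K Ω], ∀ u ∈ LSpace (constDiv Ω E),
      u ∈ (algebraMap Ω (CF K Ω FC)).range)
    (ε : ℤ) (x : Fin 4 → M.Pt κ') (h01 : x 0 - x 1 = M.bc Ψ κ' Γ) (h23 : x 2 - x 3 = M.bc Ψ κ' Γ)
    (f : CF K κ' FC) (hf : f ≠ 0) (hX : ∀ Q, 0 ≤ M.XX ζ α E (Sq.sgn ε) x f Q) (c : Place K FC) :
    M.XX ζ α E (Sq.sgn ε) x f (constPlace κ' c) ≤ E c := by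
  let _ : Algebra Φ₀ κ' := ((algebraMap Ψ κ').comp (algebraMap Φ₀ Ψ)).toAlgebra
  have : IsScalarTower Φ₀ Ψ κ' := IsScalarTower.of_algebraMap_eq fun _ => rfl
  have : IsScalarTower K Φ₀ κ' := IsScalarTower.of_algebraMap_eq fun a => by
    rw [IsScalarTower.algebraMap_apply K Ψ κ', IsScalarTower.algebraMap_apply K Φ₀ Ψ]; rfl
  have : FF1 Φ₀ κ' := Sq.ff1_of_finite Φ₀ Ψ κ'
  obtain ⟨w', hw1, hw2⟩ := Sq.exists_place_dominating (κ' := κ') w₁
  set v : Place K κ' := w'.restrictConst K with hv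
  have hred : M.red v (M.bc Ψ κ' Γ) = 0 :=
    M.red_map_eq_zero v (w₁.restrictConst K) Γ hΓ (IsScalarTower.toAlgHom K Ψ κ') hw1 hw2
  have e01 : M.red v (x 0) = M.red v (x 1) := by
    rw [← sub_eq_zero, ← M.red_sub, h01, hred]
  have e23 : M.red v (x 2) = M.red v (x 3) := by
    rw [← sub_eq_zero, ← M.red_sub, h23, hred]
  have h := M.SP0 ζ α E v (Sq.sgn ε) x f hf (hEL v.ResidueField) hX
    (M.comb_sgn_eq_zero_of_01 ζ α ε _ e01 e23) (constPlace v.ResidueField c)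
  rw [constDiv_constPlace] at h
  have h2 := single_le_finsum (constPlace κ' c)
    (M.hasFiniteSupport_XX_mul ζ α E (Sq.sgn ε) x f hf
      (fun Q => imult v Q (constPlace v.ResidueField c)))
    (fun Q => mul_nonneg (hX Q) (imult_nonneg v Q _))
  rw [h, imult_constPlace, if_pos rfl, mul_one] at h2
  exact h2

section evalQ

variable {Φ : Type u} [Field Φ] [Algebra K Φ]

theorem inr_mem_of_isNonconst {Q : Place Φ (CF K Φ FC)} (hQ : IsNonconst Q) (a : FC) :
    CF.inr K Φ FC a ∈ Q.toValuationSubring := by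
  have : a ∈ traceFC Q := by rw [hQ]; exact ValuationSubring.mem_top a
  exact this

/-- evaluation of the functions of `C` at a non-constant place `Q` -/
noncomputable def evQ {Q : Place Φ (CF K Φ FC)} (hQ : IsNonconst Q) : FC →+* Q.ResidueField :=
  (residue Q.toValuationSubring).comp
    ((CF.inr K Φ FC).toRingHom.codRestrict Q.toValuationSubring.toSubring (inr_mem_of_isNonconst hQ))

theorem evQ_apply {Q : Place Φ (CF K Φ FC)} (hQ : IsNonconst Q) (a : FC) :
    evQ hQ a = residue Q.toValuationSubring ⟨_, inr_mem_of_isNonconst hQ a⟩ := rfl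

theorem evQ_algebraMap {Q : Place Φ (CF K Φ FC)} (hQ : IsNonconst Q) (k : K) :
    evQ hQ (algebraMap K FC k) = algebraMap Φ Q.ResidueField (algebraMap K Φ k) := by
  rw [evQ_apply]
  have : (⟨_, inr_mem_of_isNonconst hQ (algebraMap K FC k)⟩ : Q.toValuationSubring) =
      algebraMap Φ Q.toValuationSubring (algebraMap K Φ k) := by
    apply Subtype.ext
    show CF.inr K Φ FC (algebraMap K FC k) = algebraMap Φ (CF K Φ FC) (algebraMap K Φ k)
    rw [AlgHom.commutes, IsScalarTower.algebraMap_apply K Φ (CF K Φ FC)]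
  rw [this]
  rfl

/-- If `t(Q)` is algebraic over a subfield `Ψ ⊆ Y`, then `Y` contains all values `a(Q)`. -/
theorem evQ_mem_of_isAlgebraic {Ψ : Type u} [Field Ψ] [Algebra K Ψ] [Algebra Ψ Φ]
    [IsScalarTower K Ψ Φ] {Q : Place Φ (CF K Φ FC)} (hQ : IsNonconst Q)
    [Algebra Ψ Q.ResidueField] [IsScalarTower Ψ Φ Q.ResidueField]
    (Y : ValuationSubring Q.ResidueField) (hY : ∀ a : Ψ, algebraMap Ψ Q.ResidueField a ∈ Y)
    (t : FC) (ht : Transcendental K t) (hτ : IsAlgebraic Ψ (evQ hQ t)) (a : FC) :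
    evQ hQ a ∈ Y := by
  have hK : ∀ k : K, evQ hQ (algebraMap K FC k) = algebraMap Ψ Q.ResidueField (algebraMap K Ψ k) := by
    intro k
    rw [evQ_algebraMap, IsScalarTower.algebraMap_apply K Ψ Φ,
      ← IsScalarTower.algebraMap_apply Ψ Φ Q.ResidueField]
  set Y' : ValuationSubring FC := Y.comap (evQ hQ) with hY'
  suffices h : Y' = ⊤ by
    have : a ∈ Y' := by rw [h]; exact ValuationSubring.mem_top a
    exact this
  by_contra hne
  obtain ⟨c, hc⟩ := exists_place_of_valuationSubring Y'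
    (fun k => by show evQ hQ (algebraMap K FC k) ∈ Y; rw [hK]; exact hY _) hne
  have htmem : t ∈ c.toValuationSubring := by
    rw [hc]
    exact mem_valuationSubring_of_isAlgebraic Y hY hτ
  obtain ⟨l, hl⟩ := (bijective_algebraMap_residueField c).2 (residue c.toValuationSubring ⟨t, htmem⟩)
  have hne0 : t - algebraMap K FC l ≠ 0 := by
    intro h0
    apply ht
    rw [sub_eq_zero.mp h0]
    exact isAlgebraic_algebraMap l
  have hinv : (t - algebraMap K FC l)⁻¹ ∈ c.toValuationSubring := by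
    rw [hc]
    show evQ hQ (t - algebraMap K FC l)⁻¹ ∈ Y
    rw [map_inv₀, _root_.map_sub, hK]
    exact mem_valuationSubring_of_isAlgebraic Y hY (hτ.sub (isAlgebraic_algebraMap _)).inv
  have hres : residue c.toValuationSubring (⟨t, htmem⟩ - algebraMap K c.toValuationSubring l) = 0 := by
    rw [_root_.map_sub, ← hl]
    exact sub_self _
  rw [residue_eq_zero_iff] at hres
  apply hres
  exact isUnit_iff_exists_inv.mpr ⟨⟨_, hinv⟩, Subtype.ext (mul_inv_cancel₀ hne0)⟩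

end evalQ

section resAlg

variable {Ψ Φ : Type u} [Field Ψ] [Field Φ] [Algebra K Ψ] [Algebra K Φ] [Algebra Ψ Φ]
  [IsScalarTower K Ψ Φ] (y : Place Ψ Φ)

/-- the `Ψ`-algebra structure on the residue field of `y.restrictConst K` -/
noncomputable abbrev resAlg : Algebra Ψ (y.restrictConst K).ResidueField :=
  inferInstanceAs (Algebra Ψ y.ResidueField)

theorem isScalarTower_resAlg :
    letI := resAlg (K := K) y
    IsScalarTower K Ψ (y.restrictConst K).ResidueField := by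
  letI := resAlg (K := K) y
  refine IsScalarTower.of_algebraMap_eq fun a => ?_
  have h1 : algebraMap K (y.restrictConst K).ResidueField a =
      residue (y.restrictConst K).toValuationSubring
        (algebraMap K (y.restrictConst K).toValuationSubring a) := rfl
  have h2 : algebraMap Ψ (y.restrictConst K).ResidueField (algebraMap K Ψ a) =
      residue y.toValuationSubring (algebraMap Ψ y.toValuationSubring (algebraMap K Ψ a)) := rfl
  rw [h1, h2]
  congr 1
  exact Subtype.ext (IsScalarTower.algebraMap_apply K Ψ Φ a)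

theorem finite_resAlg [FF1 Ψ Φ] :
    letI := resAlg (K := K) y
    Module.Finite Ψ (y.restrictConst K).ResidueField :=
  finite_residueField y

theorem red_bc_restrictConst (Γ : M.Pt Ψ) :
    letI := resAlg (K := K) y
    haveI := isScalarTower_resAlg (K := K) y
    M.red (y.restrictConst K) (M.bc Ψ Φ Γ) = M.bc Ψ (y.restrictConst K).ResidueField Γ := by
  letI := resAlg (K := K) y
  haveI := isScalarTower_resAlg (K := K) y
  let j : Ψ →ₐ[K] (y.restrictConst K).toValuationSubring :=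
    { toFun := fun a => ⟨algebraMap Ψ Φ a, y.algebraMap_mem' a⟩
      map_one' := Subtype.ext (map_one _)
      map_mul' := fun a b => Subtype.ext (map_mul _ _ _)
      map_zero' := Subtype.ext (_root_.map_zero _)
      map_add' := fun a b => Subtype.ext (_root_.map_add _ _ _)
      commutes' := fun k => Subtype.ext (IsScalarTower.algebraMap_apply K Ψ Φ k).symm }
  have e1 : (IsScalarTower.toAlgHom K (y.restrictConst K).toValuationSubring Φ).comp j =
      IsScalarTower.toAlgHom K Ψ Φ := by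
    ext a; rfl
  have e2 : (IsScalarTower.toAlgHom K (y.restrictConst K).toValuationSubring
      (y.restrictConst K).ResidueField).comp j =
      IsScalarTower.toAlgHom K Ψ (y.restrictConst K).ResidueField := by
    ext a; rfl
  have := M.red_map_comp (y.restrictConst K) j Γ
  rw [e1, e2] at this
  exact this

end resAlg

section rigid

variable {Φ₀ Ψ Φ : Type u} [Field Φ₀] [Field Ψ] [Field Φ] [Algebra K Φ₀] [Algebra K Ψ] [Algebra K Φ]
  [Algebra Φ₀ Ψ] [Algebra Ψ Φ] [IsScalarTower K Φ₀ Ψ] [IsScalarTower K Ψ Φ] [FF1 Φ₀ Ψ] [FF1 Ψ Φ]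

/-- Step 3: a non-constant point of the support whose `t`-value is algebraic over `Ψ`. -/
theorem step3 (v₁ : Place Ψ Φ) (X : Place Φ (CF K Φ FC) → ℤ)
    (hXfin : ∀ w : Place Φ (CF K Φ FC) → ℤ, Function.HasFiniteSupport (fun Q => X Q * w Q))
    (hX : ∀ Q, 0 ≤ X Q) (E : Divisor K FC)
    (h1 : ∀ P : Place (v₁.restrictConst K).ResidueField (CF K (v₁.restrictConst K).ResidueField FC),
      ∑ᶠ Q : Place Φ (CF K Φ FC), X Q * imult (v₁.restrictConst K) Q P =
        constDiv (v₁.restrictConst K).ResidueField E P)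
    (t : FC) (ht : Transcendental K t) (Q : Place Φ (CF K Φ FC)) (hQ : IsNonconst Q)
    [Algebra Ψ Q.ResidueField] [IsScalarTower Ψ Φ Q.ResidueField]
    (hτ : IsAlgebraic Ψ (evQ hQ t)) : X Q = 0 := by
  by_contra hne
  have hpos : 0 < X Q := lt_of_le_of_ne (hX Q) (Ne.symm hne)
  have : Module.Finite Φ Q.ResidueField := finite_residueField Q
  have : FF1 Ψ Q.ResidueField := Sq.ff1_of_finite Ψ Φ Q.ResidueField
  obtain ⟨Y, hY1, hY2⟩ := Sq.exists_place_dominating (κ' := Q.ResidueField) v₁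
  obtain ⟨P, hP1, hP2⟩ := exists_imult_pos (v₁.restrictConst K) Q Y.toValuationSubring
    (fun ω => hY1 ω ω.2)
    (fun ω hω hmem => by
      have h3 := hY2 ω hω
      have h4 := Fermat.Agent.S24.FF.ord_nonneg_of_mem Y hmem
      rw [Y.ord_inv] at h4
      omega)
  have hPn : IsNonconst P := by
    rw [IsNonconst, eq_top_iff]
    intro a _
    rw [hP2]
    exact ⟨inr_mem_of_isNonconst hQ a,
      evQ_mem_of_isAlgebraic hQ Y.toValuationSubring Y.algebraMap_mem' t ht hτ a⟩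
  have h2 := single_le_finsum Q (hXfin (fun Q => imult (v₁.restrictConst K) Q P))
    (fun Q => mul_nonneg (hX Q) (imult_nonneg _ Q P))
  rw [h1 P, constDiv_of_isNonconst _ _ _ hPn] at h2
  have := mul_pos hpos hP1
  omega

/-- Step 2: a non-constant point of the support whose `t`-value is transcendental over `Ψ`. -/
theorem step2 (w₁ : Place Φ₀ Ψ) (Γ : M.Pt Ψ) (hΓ : M.red (w₁.restrictConst K) Γ = 0)
    (x : Fin 4 → M.Pt Φ) (h01 : x 0 - x 1 = M.bc Ψ Φ Γ) (h23 : x 2 - x 3 = M.bc Ψ Φ Γ)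
    (t : FC) (E : Divisor K FC) (hEt : ∀ c : Place K FC, c.ord t < 0 → E c = 0)
    (hEL : ∀ (Ω : Type u) [Field Ω] [Algebra K Ω], ∀ u ∈ LSpace (constDiv Ω E),
      u ∈ (algebraMap Ω (CF K Ω FC)).range)
    (ε : ℤ) (f : CF K Φ FC) (hf : f ≠ 0) (hX : ∀ Q, 0 ≤ M.XX ζ α E (Sq.sgn ε) x f Q)
    (Q : Place Φ (CF K Φ FC)) (hQ : IsNonconst Q)
    [Algebra Ψ Q.ResidueField] [IsScalarTower Ψ Φ Q.ResidueField]
    (hτ : Transcendental Ψ (evQ hQ t)) : M.XX ζ α E (Sq.sgn ε) x f Q = 0 := by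
  by_contra hne
  have hpos : 0 < M.XX ζ α E (Sq.sgn ε) x f Q := lt_of_le_of_ne (hX Q) (Ne.symm hne)
  have : Module.Finite Φ Q.ResidueField := finite_residueField Q
  have : FF1 Ψ Q.ResidueField := Sq.ff1_of_finite Ψ Φ Q.ResidueField
  obtain ⟨Y, hY⟩ := exists_ord_neg hτ
  set A : ValuationSubring Φ := Y.toValuationSubring.comap (algebraMap Φ Q.ResidueField) with hA
  have hA1 : ∀ a : Ψ, algebraMap Ψ Φ a ∈ A := by
    intro a
    show algebraMap Φ Q.ResidueField (algebraMap Ψ Φ a) ∈ Y.toValuationSubring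
    rw [← IsScalarTower.algebraMap_apply Ψ Φ Q.ResidueField]
    exact Y.algebraMap_mem' a
  have hA2 : A ≠ ⊤ := by
    intro htop
    apply Y.ne_top'
    rw [eq_top_iff]
    intro b _
    refine mem_valuationSubring_of_isAlgebraic (Ω := Φ) Y.toValuationSubring (fun a => ?_)
      (Algebra.IsAlgebraic.isAlgebraic b)
    have : a ∈ A := by rw [htop]; exact ValuationSubring.mem_top a
    exact this
  obtain ⟨y, hy⟩ := exists_place_of_valuationSubring A hA1 hA2
  set v : Place K Φ := y.restrictConst K with hv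
  obtain ⟨P, hP1, hP2⟩ := exists_imult_pos v Q Y.toValuationSubring
    (fun ω => by
      have : (ω : Φ) ∈ A := by rw [← hy]; exact ω.2
      exact this)
    (fun ω hω hmem => by
      have h3 : (ω : Φ)⁻¹ ∈ A := by
        show algebraMap Φ Q.ResidueField (ω : Φ)⁻¹ ∈ Y.toValuationSubring
        rw [map_inv₀]; exact hmem
      rw [← hy] at h3
      have h4 := Fermat.Agent.S24.FF.ord_nonneg_of_mem y h3
      rw [y.ord_inv] at h4
      have h5 : 0 < y.ord (ω : Φ) := hω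
      omega)
  have htP : t ∉ traceFC P := by
    rw [hP2]
    rintro ⟨h, hmem⟩
    have h4 := Fermat.Agent.S24.FF.ord_nonneg_of_mem Y hmem
    have h5 : Y.ord (evQ hQ t) < 0 := hY
    rw [evQ_apply] at h5
    omega
  rcases exists_eq_constPlace_or_isNonconst P with ⟨c, rfl⟩ | hPn
  swap
  · apply htP
    rw [hPn]; exact ValuationSubring.mem_top t
  rw [traceFC_constPlace] at htP
  have hEc : E c = 0 := by
    apply hEt
    by_contra hcon
    push Not at hcon
    exact htP (Fermat.Agent.S24.FF.mem_of_ord_nonneg c hcon)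
  obtain ⟨f₁, hf₁0, hf₁⟩ := M.SP ζ α E v (Sq.sgn ε) x f hf
  have hX₁ : ∀ P', 0 ≤ M.XX ζ α E (Sq.sgn ε) (fun j => M.red v (x j)) f₁ P' := by
    intro P'
    rw [← hf₁ P']
    exact finsum_nonneg fun Q => mul_nonneg (hX Q) (imult_nonneg v Q P')
  have hX₁pos : 0 < M.XX ζ α E (Sq.sgn ε) (fun j => M.red v (x j)) f₁ (constPlace v.ResidueField c) := by
    rw [← hf₁]
    have h2 := single_le_finsum Q
      (M.hasFiniteSupport_XX_mul ζ α E (Sq.sgn ε) x f hf
        (fun Q => imult v Q (constPlace v.ResidueField c)))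
      (fun Q => mul_nonneg (hX Q) (imult_nonneg v Q _))
    exact lt_of_lt_of_le (mul_pos hpos hP1) h2
  letI := resAlg (K := K) y
  haveI := isScalarTower_resAlg (K := K) y
  haveI := finite_resAlg (K := K) y
  have hle := M.stage2 ζ α (κ' := v.ResidueField) w₁ Γ hΓ E hEL ε (fun j => M.red v (x j))
    (by rw [← M.red_sub, h01]; exact M.red_bc_restrictConst y Γ)
    (by rw [← M.red_sub, h23]; exact M.red_bc_restrictConst y Γ) f₁ hf₁0 hX₁ c
  omega

/-- RIGIDITY: `E' = div f + ε M₀ + E_Φ ≥ 0` implies `E' = E_Φ`. -/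
theorem rigid (v₁ : Place Ψ Φ) (w₁ : Place Φ₀ Ψ) (B : M.Pt Φ) (Γ : M.Pt Ψ)
    (hB : M.red (v₁.restrictConst K) B = 0) (hΓ : M.red (w₁.restrictConst K) Γ = 0)
    (x : Fin 4 → M.Pt Φ) (h01 : x 0 - x 1 = M.bc Ψ Φ Γ) (h23 : x 2 - x 3 = M.bc Ψ Φ Γ)
    (h02 : x 0 - x 2 = B) (h13 : x 1 - x 3 = B)
    (t : FC) (ht : Transcendental K t) (E : Divisor K FC)
    (hEt : ∀ c : Place K FC, c.ord t < 0 → E c = 0)
    (hEL : ∀ (Ω : Type u) [Field Ω] [Algebra K Ω], ∀ u ∈ LSpace (constDiv Ω E),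
      u ∈ (algebraMap Ω (CF K Ω FC)).range)
    (ε : ℤ) (f : CF K Φ FC) (hf : f ≠ 0) (hX : ∀ Q, 0 ≤ M.XX ζ α E (Sq.sgn ε) x f Q)
    (Q : Place Φ (CF K Φ FC)) : M.XX ζ α E (Sq.sgn ε) x f Q = constDiv Φ E Q := by
  set v : Place K Φ := v₁.restrictConst K with hv
  -- Step 1
  have e02 : M.red v (x 0) = M.red v (x 2) := by
    rw [← sub_eq_zero, ← M.red_sub, h02, hB]
  have e13 : M.red v (x 1) = M.red v (x 3) := by
    rw [← sub_eq_zero, ← M.red_sub, h13, hB]
  have h1 := M.SP0 ζ α E v (Sq.sgn ε) x f hf (hEL v.ResidueField) hX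
    (M.comb_sgn_eq_zero_of_02 ζ α ε _ e02 e13)
  -- Steps 2 and 3
  have hnc : ∀ Q' : Place Φ (CF K Φ FC), IsNonconst Q' → M.XX ζ α E (Sq.sgn ε) x f Q' = 0 := by
    intro Q' hQ'
    letI : Algebra Ψ Q'.ResidueField :=
      ((algebraMap Φ Q'.ResidueField).comp (algebraMap Ψ Φ)).toAlgebra
    haveI : IsScalarTower Ψ Φ Q'.ResidueField := IsScalarTower.of_algebraMap_eq fun _ => rfl
    by_cases hτ : IsAlgebraic Ψ (evQ hQ' t)
    · exact step3 v₁ _ (M.hasFiniteSupport_XX_mul ζ α E (Sq.sgn ε) x f hf) hX E h1 t ht Q' hQ' hτ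
    · exact M.step2 ζ α w₁ Γ hΓ x h01 h23 t E hEt hEL ε f hf hX Q' hQ' hτ
  rcases exists_eq_constPlace_or_isNonconst Q with ⟨c, rfl⟩ | hQ
  · have h2 := h1 (constPlace v.ResidueField c)
    rw [constDiv_constPlace, finsum_eq_single _ (constPlace Φ c), imult_constPlace, if_pos rfl,
      mul_one] at h2
    · rw [h2, constDiv_constPlace]
    · intro Q' hQ'
      rcases exists_eq_constPlace_or_isNonconst Q' with ⟨c', rfl⟩ | hQ'n
      · rw [imult_constPlace, if_neg, mul_zero]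
        intro h
        exact hQ' (by rw [constPlace_injective h])
      · rw [hnc Q' hQ'n, zero_mul]
  · rw [hnc Q hQ, constDiv_of_isNonconst _ _ _ hQ]

end rigid

end AVModel

end Fermat.Agent.S26
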