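import Fermat.Agent.S26.Sq.Basic

/-! # S26 / M7 : specialisation of the divisors `div f + ∑ n_j (y_j - α)^* D + E` (lemmas (SP), (SP0)). -/

set_option autoImplicit false

universe u

namespace Fermat.Agent.S26

open AlgebraicCurve IsLocalRing

namespace Sq

section ord

variable {Ω 𝕃 : Type*} [Field Ω] [Field 𝕃] [Algebra Ω 𝕃]

theorem ord_prod_zpow (P : Place Ω 𝕃) {ι : Type*} (s : Finset ι) (u : ι → 𝕃) (hu : ∀ j, u j ≠ 0)
    (n : ι → ℤ) : P.ord (∏ j ∈ s, u j ^ n j) = ∑ j ∈ s, n j * P.ord (u j) := by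
  classical
  induction s using Finset.induction_on with
  | empty => simp
  | insert a s ha ih =>
    rw [Finset.prod_insert ha, Finset.sum_insert ha,
      P.ord_mul (zpow_ne_zero _ (hu a)) (Finset.prod_ne_zero_iff.mpr fun j _ => zpow_ne_zero _ (hu j)),
      ih, P.ord_zpow]

end ord

variable {K : Type u} [Field K] [IsAlgClosed K]
variable {FC : Type u} [Field FC] [Algebra K FC] [FF1 K FC]

/-- constant divisors specialise to themselves -/
theorem finsum_constDiv_mul_imult {Φ : Type u} [Field Φ] [Algebra K Φ] (v : Place K Φ)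
    (E : Divisor K FC) (P : Place v.ResidueField (CF K v.ResidueField FC)) :
    ∑ᶠ Q : Place Φ (CF K Φ FC), constDiv Φ E Q * imult v Q P = constDiv v.ResidueField E P := by
  classical
  have hsupp : Function.support (fun Q : Place Φ (CF K Φ FC) => constDiv Φ E Q * imult v Q P) ⊆
      ((E.support.image (constPlace Φ) : Finset _) : Set _) := by
    intro Q hQ
    have h1 : constDiv Φ E Q ≠ 0 := left_ne_zero_of_mul hQ
    have h2 : Q ∈ (constDiv Φ E).support := Finsupp.mem_support_iff.mpr h1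
    rw [constDiv, Finsupp.mapDomain_support_of_injective constPlace_injective] at h2
    exact h2
  rw [finsum_eq_sum_of_support_subset _ hsupp,
    Finset.sum_image (fun a _ b _ h => constPlace_injective h)]
  simp only [constDiv_constPlace, imult_constPlace]
  rcases exists_eq_constPlace_or_isNonconst P with ⟨c₀, rfl⟩ | hP
  · rw [constDiv_constPlace]
    have : ∀ c : Place K FC, (constPlace v.ResidueField c₀ = constPlace v.ResidueField c) ↔ c₀ = c :=
      fun c => constPlace_injective.eq_iff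
    simp only [this, mul_ite, mul_one, mul_zero, Finset.sum_ite_eq, Finsupp.mem_support_iff]
    split_ifs with h
    · rfl
    · push Not at h
      exact h.symm
  · rw [constDiv_of_isNonconst _ _ _ hP]
    apply Finset.sum_eq_zero
    intro c _
    have : P ≠ constPlace v.ResidueField c := by
      rintro rfl
      rw [IsNonconst, traceFC_constPlace] at hP
      exact c.ne_top' hP
    simp [this]

end Sq

namespace AVModel

variable {K : Type u} [Field K] [IsAlgClosed K] {F : Type u} [Field F] [Algebra K F] (M : AVModel K F)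
variable {FC : Type u} [Field FC] [Algebra K FC] [FF1 K FC]
variable (ζ : M.X) (α : M.Pt FC)

/-- the combination `∑ n_j (y_j - α)^* D` -/
noncomputable def comb {ι : Type} [Fintype ι] {Φ : Type u} [Field Φ] [Algebra K Φ] (n : ι → ℤ)
    (y : ι → M.Pt Φ) (Q : Place Φ (CF K Φ FC)) : ℤ :=
  ∑ j, n j * M.Dv ζ (M.zOf (y j) α) (Q.restrictConst K)

variable {ι : Type} [Fintype ι] {Φ : Type u} [Field Φ] [Algebra K Φ]

/-- normalisation of a function to a Gauss unit and its reduction -/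
theorem exists_gaussRed (v : Place K Φ) (f : CF K Φ FC) (hf : f ≠ 0) :
    ∃ g : CF K v.ResidueField FC, g ≠ 0 ∧ ∀ P : Place v.ResidueField (CF K v.ResidueField FC),
      P.ord g = ∑ᶠ Q : Place Φ (CF K Φ FC), Q.ord f * imult v Q P := by
  obtain ⟨π, hπ⟩ := Fermat.Agent.S24.FF.exists_ord_eq_one v
  have hπ0 : π ≠ 0 := Fermat.Agent.S24.FF.ne_zero_of_ord_ne_zero v (by omega)
  have hπ' : algebraMap Φ (CF K Φ FC) π ≠ 0 := by simpa using hπ0
  set m := (gauss v FC).ord f with hm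
  set f₁ := f * (algebraMap Φ (CF K Φ FC) π) ^ (-m) with hf₁
  have hf₁0 : f₁ ≠ 0 := mul_ne_zero hf (zpow_ne_zero _ hπ')
  have hG : (gauss v FC).ord f₁ = 0 := by
    rw [hf₁, (gauss v FC).ord_mul hf (zpow_ne_zero _ hπ'), (gauss v FC).ord_zpow,
      (gaussData v FC).ord_inl, hπ]
    omega
  have hmem : f₁ ∈ (gauss v FC).toValuationSubring :=
    Fermat.Agent.S24.FF.mem_of_ord_nonneg _ hG.ge
  have hmem' : f₁⁻¹ ∈ (gauss v FC).toValuationSubring :=
    Fermat.Agent.S24.FF.mem_of_ord_nonneg _ (by rw [(gauss v FC).ord_inv, hG]; simp)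
  have hQ : ∀ Q : Place Φ (CF K Φ FC), Q.ord f₁ = Q.ord f := by
    intro Q
    rw [hf₁, Q.ord_mul hf (zpow_ne_zero _ hπ'), Q.ord_zpow, Fermat.Agent.S24.FF.ord_algebraMap]
    simp
  refine ⟨gaussRed v FC ⟨f₁, hmem⟩, ?_, ?_⟩
  · intro h0
    have h1 : gaussRed v FC (⟨f₁, hmem⟩ * ⟨f₁⁻¹, hmem'⟩) = 1 := by
      have : (⟨f₁, hmem⟩ * ⟨f₁⁻¹, hmem'⟩ : (gauss v FC).toValuationSubring) = 1 :=
        Subtype.ext (mul_inv_cancel₀ hf₁0)
      rw [this, map_one]
    rw [map_mul, h0, zero_mul] at h1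
    exact zero_ne_one h1
  · intro P
    rw [ord_gaussRed_eq_finsum v ⟨f₁, hmem⟩ hG (fun h => hf₁0 (congrArg Subtype.val h)) P]
    simp only [hQ]

theorem hasFiniteSupport_ord_mul (f : CF K Φ FC) (hf : f ≠ 0) (w : Place Φ (CF K Φ FC) → ℤ) :
    Function.HasFiniteSupport (fun Q : Place Φ (CF K Φ FC) => Q.ord f * w Q) :=
  (finite_ord_ne_zero (Ω := Φ) hf).subset fun _ hQ => left_ne_zero_of_mul hQ

theorem hasFiniteSupport_Dv_mul (z : M.Pt (CF K Φ FC)) (w : Place Φ (CF K Φ FC) → ℤ) :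
    Function.HasFiniteSupport
      (fun Q : Place Φ (CF K Φ FC) => M.Dv ζ z (Q.restrictConst K) * w Q) :=
  (M.finite_Dv_ne_zero (Ω := Φ) ζ z).subset fun _ hQ => left_ne_zero_of_mul hQ

theorem hasFiniteSupport_constDiv_mul (E : Divisor K FC) (w : Place Φ (CF K Φ FC) → ℤ) :
    Function.HasFiniteSupport (fun Q : Place Φ (CF K Φ FC) => constDiv Φ E Q * w Q) :=
  (constDiv Φ E).hasFiniteSupport.subset fun _ hQ => left_ne_zero_of_mul hQ

theorem hasFiniteSupport_comb_mul (n : ι → ℤ) (y : ι → M.Pt Φ) (w : Place Φ (CF K Φ FC) → ℤ) :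
    Function.HasFiniteSupport (fun Q : Place Φ (CF K Φ FC) => M.comb ζ α n y Q * w Q) := by
  refine (Set.finite_iUnion fun j => M.finite_Dv_ne_zero (Ω := Φ) ζ (M.zOf (y j) α)).subset ?_
  intro Q hQ
  have h1 : M.comb ζ α n y Q ≠ 0 := left_ne_zero_of_mul hQ
  obtain ⟨j, -, hj⟩ := Finset.exists_ne_zero_of_sum_ne_zero h1
  exact Set.mem_iUnion.mpr ⟨j, right_ne_zero_of_mul hj⟩

/-- the divisor `X = div f + ∑ n_j (y_j - α)^* D + E_Φ` -/
noncomputable def XX (E : Divisor K FC) (n : ι → ℤ) (y : ι → M.Pt Φ) (f : CF K Φ FC)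
    (Q : Place Φ (CF K Φ FC)) : ℤ :=
  Q.ord f + M.comb ζ α n y Q + constDiv Φ E Q

theorem hasFiniteSupport_XX_mul (E : Divisor K FC) (n : ι → ℤ) (y : ι → M.Pt Φ) (f : CF K Φ FC)
    (hf : f ≠ 0) (w : Place Φ (CF K Φ FC) → ℤ) :
    Function.HasFiniteSupport (fun Q : Place Φ (CF K Φ FC) => M.XX ζ α E n y f Q * w Q) := by
  have h := ((hasFiniteSupport_ord_mul f hf w).union (M.hasFiniteSupport_comb_mul ζ α n y w)).union
    (hasFiniteSupport_constDiv_mul E w)
  refine h.subset ?_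
  intro Q hQ
  simp only [Function.mem_support, XX] at hQ
  simp only [Set.mem_union, Function.mem_support]
  by_contra hcon
  push Not at hcon
  apply hQ
  rw [add_mul, add_mul, hcon.1.1, hcon.1.2, hcon.2]
  simp

/-- (SP) -/
theorem SP (E : Divisor K FC) (v : Place K Φ) (n : ι → ℤ) (y : ι → M.Pt Φ) (f : CF K Φ FC)
    (hf : f ≠ 0) :
    ∃ f' : CF K v.ResidueField FC, f' ≠ 0 ∧
      ∀ P : Place v.ResidueField (CF K v.ResidueField FC),
        ∑ᶠ Q : Place Φ (CF K Φ FC), M.XX ζ α E n y f Q * imult v Q P =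
          M.XX ζ α E n (fun j => M.red v (y j)) f' P := by
  obtain ⟨g, hg0, hg⟩ := exists_gaussRed v f hf
  choose u hu0 hu using fun j => M.Dv_specialise ζ v (y j) α
  refine ⟨g * ∏ j, u j ^ n j, mul_ne_zero hg0
    (Finset.prod_ne_zero_iff.mpr fun j _ => zpow_ne_zero _ (hu0 j)), ?_⟩
  intro P
  have e1 : ∀ Q : Place Φ (CF K Φ FC), M.XX ζ α E n y f Q * imult v Q P =
      (Q.ord f * imult v Q P + M.comb ζ α n y Q * imult v Q P) + constDiv Φ E Q * imult v Q P := by
    intro Q; rw [XX]; ring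
  simp only [e1]
  have hA1 := hasFiniteSupport_ord_mul f hf (fun Q => imult v Q P)
  have hA2 := M.hasFiniteSupport_comb_mul ζ α n y (fun Q => imult v Q P)
  have hA3 := hasFiniteSupport_constDiv_mul E (fun Q : Place Φ (CF K Φ FC) => imult v Q P)
  rw [finsum_add_distrib
      (f := fun Q : Place Φ (CF K Φ FC) => Q.ord f * imult v Q P + M.comb ζ α n y Q * imult v Q P)
      (g := fun Q : Place Φ (CF K Φ FC) => constDiv Φ E Q * imult v Q P) (hA1.add hA2) hA3,
    finsum_add_distrib hA1 hA2, ← hg P, Sq.finsum_constDiv_mul_imult]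
  have e2 : ∑ᶠ Q : Place Φ (CF K Φ FC), M.comb ζ α n y Q * imult v Q P =
      ∑ j, n j * (M.Dv ζ (M.zOf (M.red v (y j)) α) (P.restrictConst K) + P.ord (u j)) := by
    have : ∀ Q : Place Φ (CF K Φ FC), M.comb ζ α n y Q * imult v Q P =
        ∑ j, n j * (M.Dv ζ (M.zOf (y j) α) (Q.restrictConst K) * imult v Q P) := by
      intro Q
      rw [comb, Finset.sum_mul]
      exact Finset.sum_congr rfl fun j _ => by ring
    simp only [this]
    rw [finsum_sum_comm]
    · refine Finset.sum_congr rfl fun j _ => ?_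
      rw [← mul_finsum, hu j P]
    · intro j _
      exact (M.hasFiniteSupport_Dv_mul ζ (M.zOf (y j) α) (fun Q => imult v Q P)).subset
        fun Q hQ => right_ne_zero_of_mul hQ
  rw [e2, XX, comb, P.ord_mul hg0 (Finset.prod_ne_zero_iff.mpr fun j _ => zpow_ne_zero _ (hu0 j)),
    Sq.ord_prod_zpow P _ u hu0 n]
  simp only [mul_add, Finset.sum_add_distrib]
  ring

/-- (SP0) -/
theorem SP0 (E : Divisor K FC) (v : Place K Φ) (n : ι → ℤ) (y : ι → M.Pt Φ) (f : CF K Φ FC)
    (hf : f ≠ 0)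
    (hE : ∀ u ∈ LSpace (constDiv v.ResidueField E),
      u ∈ (algebraMap v.ResidueField (CF K v.ResidueField FC)).range)
    (hX : ∀ Q, 0 ≤ M.XX ζ α E n y f Q)
    (hcomb : ∀ P : Place v.ResidueField (CF K v.ResidueField FC),
      M.comb ζ α n (fun j => M.red v (y j)) P = 0)
    (P : Place v.ResidueField (CF K v.ResidueField FC)) :
    ∑ᶠ Q : Place Φ (CF K Φ FC), M.XX ζ α E n y f Q * imult v Q P = constDiv v.ResidueField E P := by
  obtain ⟨f', hf'0, hf'⟩ := M.SP ζ α E v n y f hf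
  have hmem : f' ∈ LSpace (constDiv v.ResidueField E) := by
    rw [mem_LSpace]
    right
    intro P'
    have h1 : 0 ≤ ∑ᶠ Q : Place Φ (CF K Φ FC), M.XX ζ α E n y f Q * imult v Q P' :=
      finsum_nonneg fun Q => mul_nonneg (hX Q) (imult_nonneg v Q P')
    rw [hf' P', XX, hcomb P'] at h1
    simpa using h1
  obtain ⟨c, hc⟩ := hE f' hmem
  rw [hf' P, XX, hcomb P, ← hc, Fermat.Agent.S24.FF.ord_algebraMap]
  simp

end AVModel

end Fermat.Agent.S26
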